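import Fermat.Agent.S44.Frame2
import Fermat.Agent.SS2.DescU.Kummer
import Fermat.Agent.JT3.Riemann.FBar

/-!
# S44 [BRIDGE] (helper7): Kummer theory of `J₀(N)[p]` in the `s44f_Rep` vocabulary

`s44f_Rep N p z f` : `f ≠ 0`, `div f = p D`, `[D] = z`.

* `s44b_rep_exists`   : `p • z = 0 → ∃ f, Rep z f`;
* `s44b_rep_unique`   : `Rep z f → Rep z f' → f' = c f h ^ p` (`c ∈ ℚ̄ˣ`, `h ≠ 0`);
* `s44b_rep_mul/_pow/_inv/_one`, `s44b_rep_zero_iff`, `s44b_rep_pth`, `s44b_rep_smul` (Galois).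
-/

set_option autoImplicit false
set_option linter.unusedSectionVars false

namespace Fermat.Agent.S44

open ModularCurve AlgebraicCurve Fermat.Agent.JT3 Fermat.Agent.S24 Fermat.Agent.SS2

section Rep

variable (N : ℕ) [NeZero N] {p : ℕ}

local notation "Qb" => AlgebraicClosure ℚ
local notation "FN" => modularFunctionFieldBar N

/-- **existence of a representing function** -/
theorem s44b_rep_exists {z : JZero N} (hz : p • z = 0) : ∃ f, s44f_Rep N p z f := by
  obtain ⟨D, rfl⟩ := Pic0.mk_surjective z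
  have h1 : Pic0.mk (p • D) = 0 := hz
  rw [Pic0.mk, QuotientAddGroup.eq_zero_iff, AddSubgroup.mem_addSubgroupOf] at h1
  obtain ⟨f, hf0, hfv⟩ := h1
  refine ⟨f, hf0, D, rfl, fun v => ?_⟩
  rw [← hfv v, AddSubgroup.coe_nsmul, Finsupp.smul_apply, nsmul_eq_mul]

/-- **uniqueness of the representing function up to constants and `p`-th powers** -/
theorem s44b_rep_unique {z : JZero N} {f f' : FN} (hf : s44f_Rep N p z f)
    (hf' : s44f_Rep N p z f') :
    ∃ (c : Qb) (h : FN), c ≠ 0 ∧ h ≠ 0 ∧ f' = algebraMap Qb FN c * f * h ^ p := by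
  obtain ⟨hf0, D, hD, hfv⟩ := hf
  obtain ⟨hf'0, D', hD', hf'v⟩ := hf'
  have hDD : Pic0.mk D = Pic0.mk D' := hD.trans hD'.symm
  rw [ss2_du_mk_eq_mk_iff] at hDD
  obtain ⟨h, hh0, hhv⟩ := hDD
  have hq0 : f' * (f * h ^ p)⁻¹ ≠ 0 :=
    mul_ne_zero hf'0 (inv_ne_zero (mul_ne_zero hf0 (pow_ne_zero _ hh0)))
  have hord : ∀ v : Place Qb FN, v.ord (f' * (f * h ^ p)⁻¹) = 0 := by
    intro v
    rw [v.ord_mul hf'0 (inv_ne_zero (mul_ne_zero hf0 (pow_ne_zero _ hh0))), v.ord_inv,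
      v.ord_mul hf0 (pow_ne_zero _ hh0), ← hf'v v, ← hfv v]
    have h1 : v.ord (h ^ p) = p * v.ord h := by
      have := v.ord_zpow h (p : ℤ)
      rwa [zpow_natCast] at this
    rw [h1, ← hhv v, Finsupp.sub_apply]
    ring
  obtain ⟨a, ha0, ha⟩ := ss2_du_const_of_div_eq_zero (rt_isSepGen_jBar N) hq0 hord
  refine ⟨a, h, ha0, hh0, ?_⟩
  rw [← ha]
  field_simp

theorem s44b_rep_one : s44f_Rep N p (0 : JZero N) (1 : FN) :=
  ⟨one_ne_zero, 0, rfl, fun v => by simp⟩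

theorem s44b_rep_mul {z z' : JZero N} {f f' : FN} (hf : s44f_Rep N p z f)
    (hf' : s44f_Rep N p z' f') : s44f_Rep N p (z + z') (f * f') := by
  obtain ⟨hf0, D, hD, hfv⟩ := hf
  obtain ⟨hf'0, D', hD', hf'v⟩ := hf'
  refine ⟨mul_ne_zero hf0 hf'0, D + D', by rw [Pic0.mk_add, hD, hD'], fun v => ?_⟩
  rw [v.ord_mul hf0 hf'0, ← hfv v, ← hf'v v, AddSubgroup.coe_add, Finsupp.add_apply]
  ring

theorem s44b_rep_inv {z : JZero N} {f : FN} (hf : s44f_Rep N p z f) :
    s44f_Rep N p (-z) f⁻¹ := by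
  obtain ⟨hf0, D, hD, hfv⟩ := hf
  refine ⟨inv_ne_zero hf0, -D, ?_, fun v => ?_⟩
  · rw [← hD]; rfl
  · rw [v.ord_inv, ← hfv v, AddSubgroup.coe_neg, Finsupp.neg_apply]
    ring

theorem s44b_rep_pow {z : JZero N} {f : FN} (hf : s44f_Rep N p z f) (k : ℕ) :
    s44f_Rep N p (k • z) (f ^ k) := by
  induction k with
  | zero => rw [zero_nsmul, pow_zero]; exact s44b_rep_one N
  | succ k ih => rw [succ_nsmul, pow_succ]; exact s44b_rep_mul N ih hf

theorem s44b_rep_div {z z' : JZero N} {f f' : FN} (hf : s44f_Rep N p z f)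
    (hf' : s44f_Rep N p z' f') : s44f_Rep N p (z - z') (f / f') := by
  rw [sub_eq_add_neg, div_eq_mul_inv]
  exact s44b_rep_mul N hf (s44b_rep_inv N hf')

/-- constants times `p`-th powers represent `0` -/
theorem s44b_rep_zero_of {c : Qb} {h : FN} (hc : c ≠ 0) (hh : h ≠ 0) :
    s44f_Rep N p (0 : JZero N) (algebraMap Qb FN c * h ^ p) := by
  have := rt_hasPrincipalDivisors_fbar N
  obtain ⟨D, hDv, hDdeg⟩ := HasPrincipalDivisors.exists_divisor (K := Qb) h hh
  have hc' : algebraMap Qb FN c ≠ 0 := (_root_.map_ne_zero _).2 hc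
  refine ⟨mul_ne_zero hc' (pow_ne_zero _ hh), ⟨D, hDdeg⟩, ?_, fun v => ?_⟩
  · rw [Pic0.mk, QuotientAddGroup.eq_zero_iff, AddSubgroup.mem_addSubgroupOf]
    exact ⟨h, hh, hDv⟩
  · rw [v.ord_mul hc' (pow_ne_zero _ hh), hw_ord_algebraMap, zero_add]
    have h1 : v.ord (h ^ p) = p * v.ord h := by
      have := v.ord_zpow h (p : ℤ)
      rwa [zpow_natCast] at this
    rw [h1]
    change (p : ℤ) * D v = _
    rw [hDv v]

theorem s44b_rep_zero_iff {f : FN} :
    s44f_Rep N p (0 : JZero N) f ↔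
      ∃ (c : Qb) (h : FN), c ≠ 0 ∧ h ≠ 0 ∧ f = algebraMap Qb FN c * h ^ p := by
  constructor
  · intro hf
    obtain ⟨c, h, hc, hh, e⟩ := s44b_rep_unique N (s44b_rep_one N) hf
    exact ⟨c, h, hc, hh, by rw [e, mul_one]⟩
  · rintro ⟨c, h, hc, hh, rfl⟩
    exact s44b_rep_zero_of N hc hh

/-- changing `f` by a constant and a `p`-th power does not change the class -/
theorem s44b_rep_pth {z : JZero N} {f : FN} {c : Qb} {h : FN} (hc : c ≠ 0) (hh : h ≠ 0) :
    s44f_Rep N p z (algebraMap Qb FN c * f * h ^ p) ↔ s44f_Rep N p z f := by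
  have hc' : algebraMap Qb FN c ≠ 0 := (_root_.map_ne_zero _).2 hc
  constructor
  · intro hf
    have h0 := s44b_rep_zero_of N (p := p) hc hh
    have := s44b_rep_div N hf h0
    rw [sub_zero] at this
    have hf0 : f ≠ 0 := by
      intro h
      exact hf.1 (by rw [h]; simp)
    have e : algebraMap Qb FN c * f * h ^ p / (algebraMap Qb FN c * h ^ p) = f := by
      field_simp
    rwa [e] at this
  · intro hf
    have h0 := s44b_rep_zero_of N (p := p) hc hh
    have := s44b_rep_mul N hf h0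
    rw [add_zero] at this
    have e : f * (algebraMap Qb FN c * h ^ p) = algebraMap Qb FN c * f * h ^ p := by ring
    rwa [e] at this

/-- **Galois**: `σ f` represents `σ z`. -/
theorem s44b_rep_smul (σ : s44_G) {z : JZero N} {f : FN} (hf : s44f_Rep N p z f) :
    s44f_Rep N p (σ • z) (arithmeticGalois (modularFunctionFieldFull N) σ • f) := by
  obtain ⟨hf0, D, hD, hfv⟩ := hf
  set g := arithmeticGalois (L := Qb) (modularFunctionFieldFull N) σ with hg
  refine ⟨?_, SemilinearAut.degZeroSMulHom g D, ?_, fun v => ?_⟩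
  · intro h
    apply hf0
    have := congrArg (g⁻¹ • ·) h
    simpa using this
  · rw [← hD, galois_smul_pic0_def, SemilinearAut.pic0_smul_mk]
  · rw [SemilinearAut.coe_degZeroSMulHom, SemilinearAut.divisor_smul_apply, hfv (g⁻¹ • v)]
    have h := SemilinearAut.ord_smul g (g⁻¹ • v) f
    rw [smul_inv_smul] at h
    exact h.symm

/-- the depth condition holds for EVERY representative -/
theorem s44b_depth_any_rep (A : ValuationSubring s44_Qb) (hp0 : p ≠ 0) {c : s44_Qb}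
    (T : FN →ₐ[Qb] FN) {z : JZero N} (h : s44f_Depth N A p c T z) {f' : FN}
    (hf' : s44f_Rep N p z f') :
    ∃ g b : FN, g ≠ 0 ∧ s44f_Int N A b ∧ T f' = g ^ p * (1 + algebraMap Qb FN c * b) := by
  obtain ⟨f, hf, g, b, hg, hb, hT⟩ := h
  obtain ⟨a, h, ha, hh, e⟩ := s44b_rep_unique N hf hf'
  obtain ⟨d, hd⟩ := IsAlgClosed.exists_pow_nat_eq a (Nat.pos_of_ne_zero hp0)
  have hd0 : d ≠ 0 := by
    rintro rfl
    rw [zero_pow hp0] at hd
    exact ha hd.symm
  refine ⟨algebraMap Qb FN d * T h * g, b, ?_, hb, ?_⟩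
  · exact mul_ne_zero (mul_ne_zero ((_root_.map_ne_zero _).2 hd0)
      ((_root_.map_ne_zero _).2 hh)) hg
  · rw [e, map_mul, map_mul, map_pow, AlgHom.commutes, hT, ← hd, map_pow]
    ring

/-- the depth condition (v2) holds for EVERY representative -/
theorem s44b_depth2_any_rep (A : ValuationSubring s44_Qb) (hp0 : p ≠ 0) {c : s44_Qb}
    (T : FN →ₐ[Qb] FN) {z : JZero N} (h : s44f_Depth2 N A p c T z) {f' : FN}
    (hf' : s44f_Rep N p z f') :
    ∃ g b : FN, g ≠ 0 ∧ s44f_Int2 N A b ∧ T f' = g ^ p * (1 + algebraMap Qb FN c * b) := by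
  obtain ⟨f, hf, g, b, hg, hb, hT⟩ := h
  obtain ⟨a, h, ha, hh, e⟩ := s44b_rep_unique N hf hf'
  obtain ⟨d, hd⟩ := IsAlgClosed.exists_pow_nat_eq a (Nat.pos_of_ne_zero hp0)
  have hd0 : d ≠ 0 := by
    rintro rfl
    rw [zero_pow hp0] at hd
    exact ha hd.symm
  refine ⟨algebraMap Qb FN d * T h * g, b, ?_, hb, ?_⟩
  · exact mul_ne_zero (mul_ne_zero ((_root_.map_ne_zero _).2 hd0)
      ((_root_.map_ne_zero _).2 hh)) hg
  · rw [e, map_mul, map_mul, map_pow, AlgHom.commutes, hT, ← hd, map_pow]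
    ring

/-- conversely: a representative with the depth relation gives the depth -/
theorem s44b_depth2_of_rep (A : ValuationSubring s44_Qb) {c : s44_Qb}
    (T : FN →ₐ[Qb] FN) {z : JZero N} {f g b : FN} (hf : s44f_Rep N p z f) (hg : g ≠ 0)
    (hb : s44f_Int2 N A b) (hT : T f = g ^ p * (1 + algebraMap Qb FN c * b)) :
    s44f_Depth2 N A p c T z := ⟨f, hf, g, b, hg, hb, hT⟩

end Rep

end Fermat.Agent.S44
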