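import Fermat.Agent.S44.Frame2

/-!
# S44 [BRIDGE] (helper7): the place `A` of `ℚ̄` above `p` has rank one; depth is monotone

* `s44b_A_arch` : `A` above `p`, `c ≠ 0`, `π ≠ 0` a nonunit of `A` ⟹ `π ^ n / c ∈ A` for some `n`;
* `s44b_depth_mono` : `c / c' ∈ A` ⟹ `s44f_Depth … c' T z → s44f_Depth … c T z`;
* `s44b_split_of_pow` : depth `≥ π ^ n` for all `n` at both components ⟹ `Split`.
-/

set_option autoImplicit false

namespace Fermat.Agent.S44

open ModularCurve Polynomial Fermat.Agent.JT3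

section Arch

variable {p : ℕ} (A : ValuationSubring s44_Qb)

theorem s44b_val_int_le (n : ℤ) : A.valuation (n : s44_Qb) ≤ 1 :=
  (A.valuation_le_one_iff _).2 (intCast_mem A n)

/-- an integer prime to `p` is a unit at `A` -/
theorem s44b_val_int_eq_one (hp : p.Prime) (hA : A.LiesOverPrime p) {n : ℤ}
    (hn : ¬ (p : ℤ) ∣ n) : A.valuation (n : s44_Qb) = 1 := by
  have hpp : Prime (p : ℤ) := Nat.prime_iff_prime_int.1 hp
  have hcop : IsCoprime (p : ℤ) n := (Prime.coprime_iff_not_dvd hpp).2 hn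
  obtain ⟨u, w, huw⟩ := hcop
  refine le_antisymm (s44b_val_int_le A n) ?_
  by_contra hlt
  push Not at hlt
  have h1 : A.valuation ((u : s44_Qb) * (p : s44_Qb)) < 1 := by
    rw [map_mul]
    have hu := s44b_val_int_le A u
    have hpv : A.valuation (p : s44_Qb) < 1 := hA
    calc A.valuation (u : s44_Qb) * A.valuation (p : s44_Qb)
        ≤ 1 * A.valuation (p : s44_Qb) := mul_le_mul_left hu _
      _ < 1 := by rwa [one_mul]
  have h2 : A.valuation ((w : s44_Qb) * (n : s44_Qb)) < 1 := by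
    rw [map_mul]
    have hw := s44b_val_int_le A w
    calc A.valuation (w : s44_Qb) * A.valuation (n : s44_Qb)
        ≤ 1 * A.valuation (n : s44_Qb) := mul_le_mul_left hw _
      _ < 1 := by rwa [one_mul]
  have h3 : A.valuation (((u : s44_Qb) * (p : s44_Qb)) + ((w : s44_Qb) * (n : s44_Qb))) < 1 :=
    Valuation.map_add_lt _ h1 h2
  have h4 : ((u : s44_Qb) * (p : s44_Qb)) + ((w : s44_Qb) * (n : s44_Qb)) = 1 := by
    have := congrArg (fun t : ℤ => (t : s44_Qb)) huw
    simpa using this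
  rw [h4, map_one] at h3
  exact lt_irrefl _ h3

theorem s44b_isAlgebraic_int (x : s44_Qb) : IsAlgebraic ℤ x :=
  (IsFractionRing.isAlgebraic_iff ℤ ℚ s44_Qb).2
    ((AlgebraicClosure.isAlgebraic ℚ).isAlgebraic x)

/-- elements integral over `ℤ` lie in `A` -/
theorem s44b_mem_of_isIntegral {x : s44_Qb} (hx : IsIntegral ℤ x) : x ∈ A := by
  have h1 : IsIntegral (A.valuation.integer) x := hx.tower_top
  have h2 := (Valuation.integer.integers A.valuation).mem_of_integral h1
  exact (A.valuation_le_one_iff _).1 ((Valuation.mem_integer_iff _ _).1 h2)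

/-- the valuation of a nonzero integer is a power of `v(p)` -/
theorem s44b_val_int (hp : p.Prime) (hA : A.LiesOverPrime p) {n : ℤ} (hn : n ≠ 0) :
    ∃ k : ℕ, A.valuation (n : s44_Qb) = A.valuation (p : s44_Qb) ^ k := by
  have hpp : Prime (p : ℤ) := Nat.prime_iff_prime_int.1 hp
  obtain ⟨k, u, hu, rfl⟩ : ∃ (k : ℕ) (u : ℤ), ¬ (p : ℤ) ∣ u ∧ n = (p : ℤ) ^ k * u := by
    have hfin : FiniteMultiplicity (p : ℤ) n :=
      Int.finiteMultiplicity_iff.2 ⟨by
        have := hp.one_lt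
        intro h
        have h2 : ((p : ℤ)).natAbs = p := Int.natAbs_natCast p
        omega, hn⟩
    obtain ⟨u, hu⟩ := pow_multiplicity_dvd (p : ℤ) n
    refine ⟨multiplicity (p : ℤ) n, u, ?_, hu⟩
    intro hd
    obtain ⟨w, rfl⟩ := hd
    have h3 : (p : ℤ) ^ (multiplicity (p : ℤ) n + 1) ∣ n := by
      generalize multiplicity (p : ℤ) n = m at hu ⊢
      exact ⟨w, by rw [hu]; ring⟩
    exact hfin.not_pow_dvd_of_multiplicity_lt (Nat.lt_succ_self _) h3
  refine ⟨k, ?_⟩
  push_cast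
  rw [map_mul, map_pow, s44b_val_int_eq_one A hp hA hu, mul_one]

/-- `v(c)` is bounded below by a power of `v(p)` -/
theorem s44b_exists_pow_p_le (hp : p.Prime) (hA : A.LiesOverPrime p) {c : s44_Qb} (hc : c ≠ 0) :
    ∃ k : ℕ, A.valuation (p : s44_Qb) ^ k ≤ A.valuation c := by
  obtain ⟨y, hy0, hy⟩ := (s44b_isAlgebraic_int c⁻¹).exists_integral_multiple
  have hmem := s44b_mem_of_isIntegral A hy
  obtain ⟨k, hk⟩ := s44b_val_int A hp hA hy0
  refine ⟨k, ?_⟩
  rw [← hk]
  have h1 : A.valuation (y • c⁻¹) ≤ 1 := (A.valuation_le_one_iff _).2 hmem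
  rw [zsmul_eq_mul, map_mul, map_inv₀] at h1
  have hvc : A.valuation c ≠ 0 := (Valuation.ne_zero_iff _).2 hc
  have hvc' : 0 < A.valuation c := zero_lt_iff.2 hvc
  calc A.valuation (y : s44_Qb) = A.valuation (y : s44_Qb) * (A.valuation c)⁻¹ * A.valuation c := by
        rw [mul_assoc, inv_mul_cancel₀ hvc, mul_one]
    _ ≤ 1 * A.valuation c := mul_le_mul_left h1 _
    _ = A.valuation c := one_mul _

/-- a nonzero nonunit `π` of `A` has a power of valuation `≤ v(p)` -/
theorem s44b_exists_pow_le_p (hp : p.Prime) (hA : A.LiesOverPrime p) {π : s44_Qb}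
    (hπ : π ∈ A.nonunits) (hπ0 : π ≠ 0) :
    ∃ m : ℕ, A.valuation π ^ m ≤ A.valuation (p : s44_Qb) := by
  classical
  by_contra hcon
  push Not at hcon
  have hpp : Prime (p : ℤ) := Nat.prime_iff_prime_int.1 hp
  obtain ⟨Q0, hQ0, hQ0π⟩ := s44b_isAlgebraic_int π
  set Q := Q0.primPart with hQ
  have hQπ : aeval π Q = 0 := aeval_primPart_eq_zero hQ0 hQ0π
  have hprim : Q.IsPrimitive := Q0.isPrimitive_primPart
  have hex : ∃ i, ¬ (p : ℤ) ∣ Q.coeff i := by
    by_contra hall
    push Not at hall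
    have := hprim (p : ℤ) ((C_dvd_iff_dvd_coeff _ _).2 hall)
    exact hpp.not_isUnit this
  set i0 := Nat.find hex with hi0
  have hi0_spec : ¬ (p : ℤ) ∣ Q.coeff i0 := Nat.find_spec hex
  have hi0_min : ∀ i < i0, (p : ℤ) ∣ Q.coeff i := fun i hi => by
    by_contra h
    exact Nat.find_min hex hi h
  have hvπ : A.valuation π < 1 := hπ
  have hvπ0 : A.valuation π ≠ 0 := (Valuation.ne_zero_iff _).2 hπ0
  have hvπpos : 0 < A.valuation π := zero_lt_iff.2 hvπ0
  have hg0 : A.valuation π ^ i0 ≠ 0 := pow_ne_zero _ hvπ0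
  -- the sum
  have hsum : ∑ i ∈ Finset.range (Q.natDegree + 1), ((Q.coeff i : ℤ) : s44_Qb) * π ^ i = 0 := by
    have := hQπ
    rw [aeval_eq_sum_range] at this
    simpa [zsmul_eq_mul] using this
  have hi0_le : i0 ∈ Finset.range (Q.natDegree + 1) := by
    rw [Finset.mem_range]
    have : Q.coeff i0 ≠ 0 := fun h => hi0_spec (by rw [h]; exact dvd_zero _)
    have := le_natDegree_of_ne_zero this
    omega
  rw [← Finset.add_sum_erase _ _ hi0_le] at hsum
  have hlt : A.valuation (∑ i ∈ (Finset.range (Q.natDegree + 1)).erase i0,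
      ((Q.coeff i : ℤ) : s44_Qb) * π ^ i) < A.valuation π ^ i0 := by
    refine Valuation.map_sum_lt _ hg0 ?_
    intro i hi
    rw [Finset.mem_erase] at hi
    rw [map_mul, map_pow]
    rcases lt_or_gt_of_ne hi.1 with hlt | hgt
    · -- `i < i0`
      obtain ⟨w, hw⟩ := hi0_min i hlt
      have h1 : A.valuation ((Q.coeff i : ℤ) : s44_Qb) ≤ A.valuation (p : s44_Qb) := by
        rw [hw]
        push_cast
        rw [map_mul]
        calc A.valuation (p : s44_Qb) * A.valuation (w : s44_Qb)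
            ≤ A.valuation (p : s44_Qb) * 1 := mul_le_mul_right (s44b_val_int_le A w) _
          _ = A.valuation (p : s44_Qb) := mul_one _
      have h2 : A.valuation π ^ i ≤ 1 := pow_le_one₀ (le_of_lt hvπpos) (le_of_lt hvπ)
      calc A.valuation ((Q.coeff i : ℤ) : s44_Qb) * A.valuation π ^ i
          ≤ A.valuation (p : s44_Qb) * 1 := mul_le_mul' h1 h2
        _ = A.valuation (p : s44_Qb) := mul_one _
        _ < A.valuation π ^ i0 := hcon i0
    · -- `i0 < i`
      have h1 := s44b_val_int_le A (Q.coeff i)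
      have h2 : A.valuation π ^ i < A.valuation π ^ i0 :=
        pow_lt_pow_right_of_lt_one₀ hvπpos hvπ hgt
      calc A.valuation ((Q.coeff i : ℤ) : s44_Qb) * A.valuation π ^ i
          ≤ 1 * A.valuation π ^ i := mul_le_mul_left h1 _
        _ = A.valuation π ^ i := one_mul _
        _ < A.valuation π ^ i0 := h2
  have heq : A.valuation (∑ i ∈ (Finset.range (Q.natDegree + 1)).erase i0,
      ((Q.coeff i : ℤ) : s44_Qb) * π ^ i) = A.valuation π ^ i0 := by
    have h3 : ∑ i ∈ (Finset.range (Q.natDegree + 1)).erase i0,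
        ((Q.coeff i : ℤ) : s44_Qb) * π ^ i = -(((Q.coeff i0 : ℤ) : s44_Qb) * π ^ i0) := by
      rw [eq_neg_iff_add_eq_zero, add_comm]
      exact hsum
    rw [h3, Valuation.map_neg, map_mul, map_pow, s44b_val_int_eq_one A hp hA hi0_spec, one_mul]
  rw [heq] at hlt
  exact lt_irrefl _ hlt

/-- **`A` has rank one**: every nonzero nonunit `π` has a power below any given `c ≠ 0`. -/
theorem s44b_A_arch (hp : p.Prime) (hA : A.LiesOverPrime p) {c : s44_Qb} (hc : c ≠ 0)
    {π : s44_Qb} (hπ : π ∈ A.nonunits) (hπ0 : π ≠ 0) : ∃ n : ℕ, π ^ n / c ∈ A := by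
  obtain ⟨k, hk⟩ := s44b_exists_pow_p_le A hp hA hc
  obtain ⟨m, hm⟩ := s44b_exists_pow_le_p A hp hA hπ hπ0
  refine ⟨m * k, ?_⟩
  rw [← A.valuation_le_one_iff, map_div₀, map_pow, pow_mul]
  have hvc : A.valuation c ≠ 0 := (Valuation.ne_zero_iff _).2 hc
  have h1 : (A.valuation π ^ m) ^ k ≤ A.valuation c :=
    le_trans (pow_le_pow_left₀ zero_le hm k) hk
  calc (A.valuation π ^ m) ^ k / A.valuation c ≤ A.valuation c / A.valuation c := by
        rw [div_eq_mul_inv, div_eq_mul_inv]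
        exact mul_le_mul_left h1 _
    _ = 1 := div_self hvc

/-- variant: `c ∣ π ^ n` in `A` for all large `n` -/
theorem s44b_A_arch' (hp : p.Prime) (hA : A.LiesOverPrime p) {c : s44_Qb} (hc : c ≠ 0)
    {π : s44_Qb} (hπ : π ∈ A.nonunits) (hπ0 : π ≠ 0) :
    ∃ n₀ : ℕ, ∀ n, n₀ ≤ n → π ^ n / c ∈ A := by
  obtain ⟨n₀, hn₀⟩ := s44b_A_arch A hp hA hc hπ hπ0
  refine ⟨n₀, fun n hn => ?_⟩
  obtain ⟨d, rfl⟩ := Nat.exists_eq_add_of_le hn
  have hπA : π ∈ A := A.nonunits_le hπ
  have : π ^ (n₀ + d) / c = π ^ d * (π ^ n₀ / c) := by rw [pow_add]; ring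
  rw [this]
  exact A.mul_mem _ _ (pow_mem hπA d) hn₀

end Arch

section Depth

variable (N : ℕ) (A : ValuationSubring s44_Qb)

/-- coefficients of a constant multiple -/
theorem s44b_coeff_const_mul (a : s44_Qb) (b : modularFunctionFieldBar N) (n : ℤ) :
    ((algebraMap (AlgebraicClosure ℚ) (modularFunctionFieldBar N) a * b :
      modularFunctionFieldBar N) : LaurentSeries (AlgebraicClosure ℚ)).coeff n =
      a * (b : LaurentSeries (AlgebraicClosure ℚ)).coeff n := by
  rw [← Algebra.smul_def, IntermediateField.coe_smul]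
  first
    | exact HahnSeries.coeff_smul _ _ _
    | (rw [Algebra.smul_def, algebraMap_laurentSeries_eq_single]; simp)

theorem s44b_int_const_mul {a : s44_Qb} (ha : a ∈ A) {b : modularFunctionFieldBar N}
    (hb : s44f_Int N A b) :
    s44f_Int N A (algebraMap (AlgebraicClosure ℚ) (modularFunctionFieldBar N) a * b) := by
  intro n
  rw [s44b_coeff_const_mul]
  exact A.mul_mem _ _ ha (hb n)

/-- **depth is monotone** -/
theorem s44b_depth_mono (p : ℕ) {c a : s44_Qb} (ha : a ∈ A)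
    (T : modularFunctionFieldBar N →ₐ[AlgebraicClosure ℚ] modularFunctionFieldBar N)
    {z : JZero N} (h : s44f_Depth N A p (c * a) T z) : s44f_Depth N A p c T z := by
  obtain ⟨f, hf, g, b, hg, hb, hT⟩ := h
  refine ⟨f, hf, g, algebraMap _ _ a * b, hg, s44b_int_const_mul N A ha hb, ?_⟩
  rw [hT, map_mul, mul_assoc]

/-- depth `≥ v(c')` implies depth `≥ v(c)` when `c' / c ∈ A` -/
theorem s44b_depth_mono' (p : ℕ) {c c' : s44_Qb} (hc : c ≠ 0) (ha : c' / c ∈ A)
    (T : modularFunctionFieldBar N →ₐ[AlgebraicClosure ℚ] modularFunctionFieldBar N)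
    {z : JZero N} (h : s44f_Depth N A p c' T z) : s44f_Depth N A p c T z := by
  apply s44b_depth_mono N A p ha T
  rwa [mul_div_cancel₀ _ hc]

end Depth

section Depth2

variable (N : ℕ) (A : ValuationSubring s44_Qb)

/-- constants of `A` are Gauss-bounded -/
theorem s44b_int2_const {a : s44_Qb} (ha : a ∈ A) :
    gq_IsBdd ↥A s44_Qb (algebraMap s44_Qb (LaurentSeries s44_Qb) a) := by
  have h := gq_isBdd_iota (O := ↥A) (K := s44_Qb) (HahnSeries.single (0 : ℤ) (⟨a, ha⟩ : ↥A))
  rw [coeffMap_single] at h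
  rw [algebraMap_laurentSeries_eq_single]
  exact h

theorem s44b_int2_const_mul {a : s44_Qb} (ha : a ∈ A) {b : modularFunctionFieldBar N}
    (hb : s44f_Int2 N A b) :
    s44f_Int2 N A (algebraMap (AlgebraicClosure ℚ) (modularFunctionFieldBar N) a * b) :=
  (gq_bddSubring ↥A s44_Qb).mul_mem (s44b_int2_const A ha) hb

theorem s44b_int2_mul {b b' : modularFunctionFieldBar N} (hb : s44f_Int2 N A b)
    (hb' : s44f_Int2 N A b') : s44f_Int2 N A (b * b') :=
  (gq_bddSubring ↥A s44_Qb).mul_mem hb hb'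

theorem s44b_int2_add {b b' : modularFunctionFieldBar N} (hb : s44f_Int2 N A b)
    (hb' : s44f_Int2 N A b') : s44f_Int2 N A (b + b') :=
  (gq_bddSubring ↥A s44_Qb).add_mem hb hb'

theorem s44b_int2_one : s44f_Int2 N A (1 : modularFunctionFieldBar N) :=
  (gq_bddSubring ↥A s44_Qb).one_mem

theorem s44b_int2_zero : s44f_Int2 N A (0 : modularFunctionFieldBar N) :=
  (gq_bddSubring ↥A s44_Qb).zero_mem

/-- **depth (v2) is monotone** -/
theorem s44b_depth2_mono (p : ℕ) {c a : s44_Qb} (ha : a ∈ A)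
    (T : modularFunctionFieldBar N →ₐ[AlgebraicClosure ℚ] modularFunctionFieldBar N)
    {z : JZero N} (h : s44f_Depth2 N A p (c * a) T z) : s44f_Depth2 N A p c T z := by
  obtain ⟨f, hf, g, b, hg, hb, hT⟩ := h
  refine ⟨f, hf, g, algebraMap _ _ a * b, hg, s44b_int2_const_mul N A ha hb, ?_⟩
  rw [hT, map_mul, mul_assoc]

/-- depth `≥ v(c')` implies depth `≥ v(c)` when `c' / c ∈ A` -/
theorem s44b_depth2_mono' (p : ℕ) {c c' : s44_Qb} (hc : c ≠ 0) (ha : c' / c ∈ A)
    (T : modularFunctionFieldBar N →ₐ[AlgebraicClosure ℚ] modularFunctionFieldBar N)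
    {z : JZero N} (h : s44f_Depth2 N A p c' T z) : s44f_Depth2 N A p c T z := by
  apply s44b_depth2_mono N A p ha T
  rwa [mul_div_cancel₀ _ hc]

/-- coefficientwise integrality implies Gauss-boundedness -/
theorem s44b_int2_of_int {b : modularFunctionFieldBar N} (hb : s44f_Int N A b) :
    s44f_Int2 N A b := by
  classical
  have hsupp : (Function.support fun n : ℤ =>
      (⟨(b : LaurentSeries s44_Qb).coeff n, hb n⟩ : ↥A)) ⊆
      (b : LaurentSeries s44_Qb).support := by
    intro n hn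
    rw [Function.mem_support] at hn
    rw [HahnSeries.mem_support]
    intro h0
    exact hn (Subtype.ext h0)
  have h := gq_isBdd_iota (O := ↥A) (K := s44_Qb)
    (⟨fun n => (⟨(b : LaurentSeries s44_Qb).coeff n, hb n⟩ : ↥A),
      (b : LaurentSeries s44_Qb).isPWO_support.mono hsupp⟩ : LaurentSeries ↥A)
  have e : coeffMap (algebraMap ↥A s44_Qb)
      (⟨fun n => (⟨(b : LaurentSeries s44_Qb).coeff n, hb n⟩ : ↥A),
      (b : LaurentSeries s44_Qb).isPWO_support.mono hsupp⟩ : LaurentSeries ↥A) =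
      (b : LaurentSeries s44_Qb) := by
    ext n
    rw [coeffMap_coeff]
    rfl
  rw [e] at h
  exact h

/-- depth v1 implies depth v2 -/
theorem s44b_depth2_of_depth (p : ℕ) {c : s44_Qb}
    (T : modularFunctionFieldBar N →ₐ[AlgebraicClosure ℚ] modularFunctionFieldBar N)
    {z : JZero N} (h : s44f_Depth N A p c T z) : s44f_Depth2 N A p c T z := by
  obtain ⟨f, hf, g, b, hg, hb, hT⟩ := h
  exact ⟨f, hf, g, b, hg, s44b_int2_of_int N A hb, hT⟩

end Depth2

end Fermat.Agent.S44
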