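import Fermat.Agent.S44.Frame2
import Fermat.Agent.SS.Model.AL
import Fermat.Agent.SS.Model.GaussBC
import Fermat.Agent.JT3.Descent.FieldOfDef
import Fermat.Agent.JT3.Descent.ConstDVR
import Fermat.Agent.JT3.Inst.Defs
import Fermat.Agent.S35.RedN.InstFull

/-!
# S44 [BRIDGE] (helper7): descent of finitely many functions of `F̄_N` to a normal number field

* `s44b_exists_nf` : finitely many elements of `F̄_N = modularFunctionFieldBar N` and finitely many
  constants are defined over ONE subfield `L1 ⊆ ℚ̄`, finite and normal over `ℚ`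
  (`x = ssm_al_iotaF L1 N x1`, `x1 ∈ lg_F L1 N`);
* `s44b_int2_iotaF` / `s44b_int2_iotaF_iff` : Gauss-boundedness over `A` of `ιF b1` is
  Gauss-boundedness of `b1` over `A ∩ L1` (wrappers of `ssm_gb_isBdd`, `ssm_gb_isBdd_iff`).
-/

set_option autoImplicit false
set_option linter.unusedSectionVars false

namespace Fermat.Agent.S44

open ModularCurve AlgebraicCurve Fermat.Agent.JT3 Fermat.Agent.SS

local notation "Qb" => AlgebraicClosure ℚ

/-- **descent to a normal number field.** -/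
theorem s44b_exists_nf (N : ℕ) [NeZero N] (S : Finset (modularFunctionFieldBar N))
    (T : Finset Qb) :
    ∃ L1 : IntermediateField ℚ Qb, FiniteDimensional ℚ L1 ∧ Normal ℚ L1 ∧
      (↑T : Set Qb) ⊆ L1 ∧
      ∀ x ∈ S, ∃ x1 : ↥(lg_F L1 N), ssm_al_iotaF L1 N x1 = x := by
  classical
  have _ : Algebra.IsAlgebraic ℚ Qb := AlgebraicClosure.isAlgebraic ℚ
  have _ : IsAlgClosure ℚ Qb := ⟨inferInstance, AlgebraicClosure.isAlgebraic ℚ⟩
  have _ : Normal ℚ Qb := IsAlgClosure.normal ℚ Qb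
  have hfg : ∀ x : modularFunctionFieldBar N, ∃ s : Finset Qb,
      ∀ L1 : IntermediateField ℚ Qb, (↑s : Set Qb) ⊆ L1 →
        ∃ y1 ∈ laurentBaseChange L1 (modularFunctionFieldFull N),
          dsc_cm L1 Qb y1 = (x : LaurentSeries Qb) :=
    fun x => dsc_bc_exists_fg Qb (modularFunctionFieldFull N) x.2
  choose sel hsel using hfg
  let U : Finset Qb := T ∪ S.biUnion sel
  let L0 : IntermediateField ℚ Qb := IntermediateField.adjoin ℚ (↑U : Set Qb)
  have hfin0 : FiniteDimensional ℚ L0 :=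
    IntermediateField.finiteDimensional_adjoin fun x _ =>
      (Algebra.IsAlgebraic.isAlgebraic (R := ℚ) x).isIntegral
  let L1 : IntermediateField ℚ Qb := IntermediateField.normalClosure ℚ L0 Qb
  have hle : L0 ≤ L1 := IntermediateField.le_normalClosure L0
  have hsub : (↑U : Set Qb) ⊆ L1 := fun a ha => hle (IntermediateField.subset_adjoin ℚ _ ha)
  refine ⟨L1, ?_, ?_, ?_, ?_⟩
  · exact normalClosure.is_finiteDimensional ℚ L0 Qb
  · exact normalClosure.normal ℚ L0 Qb
  · intro a ha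
    exact hsub (by
      rw [Finset.mem_coe] at ha ⊢
      exact Finset.mem_union_left _ ha)
  · intro x hx
    obtain ⟨y1, hy1, hy⟩ := hsel x L1 (fun a ha => hsub (by
      rw [Finset.mem_coe] at ha ⊢
      exact Finset.mem_union_right _ (Finset.mem_biUnion.2 ⟨x, hx, ha⟩)))
    rw [← lg_F_eq_laurentBaseChange] at hy1
    exact ⟨⟨y1, hy1⟩, Subtype.ext hy⟩

section Int2

variable (N : ℕ) [NeZero N] (A : ValuationSubring Qb) (L1 : IntermediateField ℚ Qb)

/-- number field ⟹ `ℚ̄`: Gauss-boundedness over `A ∩ L1` gives `s44f_Int2`. -/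
theorem s44b_int2_iotaF (b1 : ↥(lg_F L1 N))
    (h : gq_IsBdd ↥(A.comap (algebraMap L1 Qb)) L1 (b1 : LaurentSeries L1)) :
    s44f_Int2 N A (ssm_al_iotaF L1 N b1) :=
  ssm_gb_isBdd (algebraMap L1 Qb) (A.comap (algebraMap L1 Qb)) A (fun _ => Iff.rfl) h

/-- `ℚ̄` ⟹ number field (`L1` finite over `ℚ`, `A` above a prime `ℓ`). -/
theorem s44b_int2_iotaF_iff {ℓ : ℕ} (hℓ : A.LiesOverPrime ℓ) (hℓ0 : ℓ ≠ 0)
    [hfin : FiniteDimensional ℚ L1] (b1 : ↥(lg_F L1 N)) :
    s44f_Int2 N A (ssm_al_iotaF L1 N b1) ↔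
      gq_IsBdd ↥(A.comap (algebraMap L1 Qb)) L1 (b1 : LaurentSeries L1) := by
  have : NumberField L1 := { to_charZero := inferInstance, to_finiteDimensional := hfin }
  have : IsDiscreteValuationRing ↥(A.comap (algebraMap L1 Qb)) :=
    dsc_isDVR_comap_numberField A ℓ hℓ hℓ0 L1
  obtain ⟨π0, hirr⟩ := IsDiscreteValuationRing.exists_irreducible
    ↥(A.comap (algebraMap L1 Qb))
  have hq : gq_IsQuot ↥(A.comap (algebraMap L1 Qb)) L1 (b1 : LaurentSeries L1) :=
    Fermat.Agent.S35.rdn_gf_le_quotField (A.comap (algebraMap L1 Qb)) N b1.2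
  exact ssm_gb_isBdd_iff (algebraMap L1 Qb) (A.comap (algebraMap L1 Qb)) A (fun _ => Iff.rfl)
    π0 hirr.ne_zero hirr.maximalIdeal_eq hq

end Int2

end Fermat.Agent.S44
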