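import Fermat.Agent.S44.Bridge.Rep

/-!
# S44 [BRIDGE] (helper7): `σ z = k z` in terms of a representing function

* `s44b_rep_inj`    : a function represents at most one class (`p ≠ 0`);
* `s44b_smul_eq_nsmul_iff` : for `Rep z f`:  `σ • z = k • z ↔ ∃ c g, σ f = c f ^ k g ^ p`;
* `s44b_chiEigen_of_kummer` / `s44b_kummer_of_chiEigen` : the same for `Fr.ChiEigen z`.
-/

set_option autoImplicit false
set_option linter.unusedSectionVars false

namespace Fermat.Agent.S44

open ModularCurve AlgebraicCurve Fermat.Agent.JT3 Fermat.Agent.S24 Fermat.Agent.SS2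

section Eigen

variable (N : ℕ) [NeZero N] {p : ℕ}

local notation "Qb" => AlgebraicClosure ℚ
local notation "FN" => modularFunctionFieldBar N

/-- a function represents at most one class -/
theorem s44b_rep_inj (hp0 : p ≠ 0) {z z' : JZero N} {f : FN} (hf : s44f_Rep N p z f)
    (hf' : s44f_Rep N p z' f) : z = z' := by
  obtain ⟨-, D, hD, hfv⟩ := hf
  obtain ⟨-, D', hD', hf'v⟩ := hf'
  have hDD : D = D' := by
    apply Subtype.ext
    ext v
    have h1 := hfv v
    have h2 := hf'v v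
    have hp : (p : ℤ) ≠ 0 := by exact_mod_cast hp0
    exact mul_left_cancel₀ hp (h1.trans h2.symm)
  rw [← hD, ← hD', hDD]

/-- **`σ z = k z` from a Kummer relation** -/
theorem s44b_smul_eq_nsmul_of_kummer (hp0 : p ≠ 0) (σ : s44_G) (k : ℕ) {z : JZero N} {f : FN}
    (hf : s44f_Rep N p z f)
    (h : ∃ (c : Qb) (g : FN), c ≠ 0 ∧ g ≠ 0 ∧
      arithmeticGalois (modularFunctionFieldFull N) σ • f = algebraMap Qb FN c * f ^ k * g ^ p) :
    σ • z = k • z := by
  obtain ⟨c, g, hc, hg, e⟩ := h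
  have h1 := s44b_rep_smul N σ hf
  have h2 : s44f_Rep N p (k • z) (algebraMap Qb FN c * f ^ k * g ^ p) :=
    (s44b_rep_pth N hc hg).2 (s44b_rep_pow N hf k)
  rw [e] at h1
  exact s44b_rep_inj N hp0 h1 h2

/-- **a Kummer relation from `σ z = k z`** -/
theorem s44b_kummer_of_smul_eq_nsmul (σ : s44_G) (k : ℕ) {z : JZero N} {f : FN}
    (hf : s44f_Rep N p z f) (h : σ • z = k • z) :
    ∃ (c : Qb) (g : FN), c ≠ 0 ∧ g ≠ 0 ∧
      arithmeticGalois (modularFunctionFieldFull N) σ • f = algebraMap Qb FN c * f ^ k * g ^ p := by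
  have h1 := s44b_rep_smul N σ hf
  rw [h] at h1
  exact s44b_rep_unique N (s44b_rep_pow N hf k) h1

theorem s44b_smul_eq_nsmul_iff (hp0 : p ≠ 0) (σ : s44_G) (k : ℕ) {z : JZero N} {f : FN}
    (hf : s44f_Rep N p z f) :
    σ • z = k • z ↔ ∃ (c : Qb) (g : FN), c ≠ 0 ∧ g ≠ 0 ∧
      arithmeticGalois (modularFunctionFieldFull N) σ • f = algebraMap Qb FN c * f ^ k * g ^ p :=
  ⟨s44b_kummer_of_smul_eq_nsmul N σ k hf, s44b_smul_eq_nsmul_of_kummer N hp0 σ k hf⟩

end Eigen

section Frame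

variable {P : FreyPackage} {M : ℕ} [NeZero M] [NeZero (M * P.p)] (Fr : s44_Frame P M)

local notation "Qb" => AlgebraicClosure ℚ

/-- **[TOR], last step**: Kummer relations for all `σ ∈ Γ` give `ChiEigen z`. -/
theorem s44b_chiEigen_of_kummer {z : JZero (M * P.p)} {f : modularFunctionFieldBar (M * P.p)}
    (hf : s44f_Rep (M * P.p) P.p z f)
    (h : ∀ σ ∈ Fr.Γ, ∀ k : ℕ, σ Fr.ζ = Fr.ζ ^ k →
      ∃ (c : Qb) (g : modularFunctionFieldBar (M * P.p)), c ≠ 0 ∧ g ≠ 0 ∧
        arithmeticGalois (modularFunctionFieldFull (M * P.p)) σ • f =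
          algebraMap Qb (modularFunctionFieldBar (M * P.p)) c * f ^ k * g ^ P.p) :
    Fr.ChiEigen z := fun σ hσ k hk =>
  s44b_smul_eq_nsmul_of_kummer (M * P.p) P.hp0 σ k hf (h σ hσ k hk)

/-- **[PSI-EIG], first step**: `ChiEigen z` gives Kummer relations for any representative. -/
theorem s44b_kummer_of_chiEigen {z : JZero (M * P.p)} {f : modularFunctionFieldBar (M * P.p)}
    (hf : s44f_Rep (M * P.p) P.p z f) (h : Fr.ChiEigen z) :
    ∀ σ ∈ Fr.Γ, ∀ k : ℕ, σ Fr.ζ = Fr.ζ ^ k →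
      ∃ (c : Qb) (g : modularFunctionFieldBar (M * P.p)), c ≠ 0 ∧ g ≠ 0 ∧
        arithmeticGalois (modularFunctionFieldFull (M * P.p)) σ • f =
          algebraMap Qb (modularFunctionFieldBar (M * P.p)) c * f ^ k * g ^ P.p :=
  fun σ hσ k hk => s44b_kummer_of_smul_eq_nsmul (M * P.p) σ k hf (h σ hσ k hk)

end Frame

end Fermat.Agent.S44
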