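import Fermat.Agent.S44.Bridge.Ext
import Fermat.Agent.JT3.ES.Smooth

/-!
# S44 [BRIDGE] (helper7): the group `H` of (H2-i)/(H2-ii) and the homomorphism `a' : H → ℤ/p`

Abstract part (`G` a group acting on an additive group `J`, `X V : J`):
* `s44b_extSubgroup X V : Subgroup G` := `{σ | σ • X = X ∧ ∃ m : ℤ, σ • V = V + m • X}`;
* `s44b_ext_hom` : if `X ≠ 0`, `p • X = 0` (`p` prime) there is an additive `a' : H → ZMod p` with
  `σ • V = V + (a' σ).val • X` for all `σ ∈ H`.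

For `J = J₀(N)`: `H` contains `Gal(ℚ̄ / L)` for a number field `L` (`s44b_extSubgroup_open`), and the
function-field relation `σ f_V = c f_V f_X ^ a'(σ) g ^ p` holds for all `σ ∈ H` (`s44b_ext_kummer`).
-/

set_option autoImplicit false
set_option linter.unusedSectionVars false

namespace Fermat.Agent.S44

open ModularCurve AlgebraicCurve Fermat.Agent.JT3

section Abs

variable {G J : Type*} [Group G] [AddCommGroup J] [DistribMulAction G J]

/-- `σ` fixes `X` and moves `V` by a multiple of `X`. -/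
def s44b_extSubgroup (X V : J) : Subgroup G where
  carrier := {σ | σ • X = X ∧ ∃ m : ℤ, σ • V = V + m • X}
  one_mem' := ⟨one_smul _ _, 0, by rw [one_smul, zero_zsmul, add_zero]⟩
  mul_mem' := by
    rintro σ τ ⟨hσ, m, hm⟩ ⟨hτ, n, hn⟩
    refine ⟨by rw [mul_smul, hτ, hσ], n + m, ?_⟩
    rw [mul_smul, hn, smul_add, smul_comm σ n X, hσ, hm, add_zsmul]
    abel
  inv_mem' := by
    rintro σ ⟨hσ, m, hm⟩
    have hσ' : σ⁻¹ • X = X := by
      rw [inv_smul_eq_iff, hσ]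
    refine ⟨hσ', -m, ?_⟩
    rw [inv_smul_eq_iff, smul_add, smul_comm σ (-m) X, hσ, hm]
    rw [neg_zsmul]
    abel

theorem s44b_mem_extSubgroup {X V : J} {σ : G} :
    σ ∈ s44b_extSubgroup (G := G) X V ↔ σ • X = X ∧ ∃ m : ℤ, σ • V = V + m • X := Iff.rfl

/-- the stabiliser of `X` and `V` lies in `H` -/
theorem s44b_mem_extSubgroup_of_fix {X V : J} {σ : G} (hX : σ • X = X) (hV : σ • V = V) :
    σ ∈ s44b_extSubgroup (G := G) X V :=
  ⟨hX, 0, by rw [hV, zero_zsmul, add_zero]⟩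

/-- multiples of a point of exact order `p` -/
theorem s44b_zsmul_inj {p : ℕ} (hp : p.Prime) {X : J} (hX : p • X = 0) (hX0 : X ≠ 0)
    {m n : ℤ} (h : m • X = n • X) : ((m : ℤ) : ZMod p) = ((n : ℤ) : ZMod p) := by
  have h0 : (m - n) • X = 0 := by rw [sub_zsmul, h]; exact add_neg_cancel (n • X)
  rw [← sub_eq_zero, ← Int.cast_sub, ZMod.intCast_zmod_eq_zero_iff_dvd]
  by_contra hnd
  have hpp : Prime (p : ℤ) := Nat.prime_iff_prime_int.1 hp
  have hcop : IsCoprime (p : ℤ) (m - n) := (Prime.coprime_iff_not_dvd hpp).2 hnd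
  obtain ⟨u, w, huw⟩ := hcop
  apply hX0
  have hpX : (p : ℤ) • X = 0 := by rw [natCast_zsmul]; exact hX
  calc X = (1 : ℤ) • X := (one_zsmul _).symm
    _ = (u * (p : ℤ) + w * (m - n)) • X := by rw [huw]
    _ = 0 := by rw [add_zsmul, mul_zsmul, mul_zsmul, hpX, h0, smul_zero, smul_zero, add_zero]

theorem s44b_zsmul_eq_val {p : ℕ} [NeZero p] {X : J} (hX : p • X = 0) (m : ℤ) :
    m • X = ((m : ZMod p).val : ℕ) • X := by
  have hpX : (p : ℤ) • X = 0 := by rw [natCast_zsmul]; exact hX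
  have h1 : (((m : ZMod p).val : ℕ) : ℤ) = m % (p : ℤ) := by
    rw [ZMod.val_intCast]
  have e : m = (p : ℤ) * (m / (p : ℤ)) + (((m : ZMod p).val : ℕ) : ℤ) := by
    rw [h1]
    exact (Int.mul_ediv_add_emod m p).symm
  conv_lhs => rw [e]
  rw [add_zsmul, mul_comm, mul_zsmul, hpX, smul_zero, zero_add, natCast_zsmul]

/-- **the homomorphism `a' : H → ℤ/p`.** -/
theorem s44b_ext_hom {p : ℕ} (hp : p.Prime) {X V : J} (hX : p • X = 0) (hX0 : X ≠ 0) :
    ∃ a' : ↥(s44b_extSubgroup (G := G) X V) → ZMod p,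
      (∀ σ τ, a' (σ * τ) = a' σ + a' τ) ∧
      (∀ σ : ↥(s44b_extSubgroup (G := G) X V), (σ : G) • V = V + (a' σ).val • X) ∧
      (∀ (σ : ↥(s44b_extSubgroup (G := G) X V)) (m : ℤ), (σ : G) • V = V + m • X →
        a' σ = ((m : ℤ) : ZMod p)) := by
  classical
  have : NeZero p := ⟨hp.ne_zero⟩
  choose mm hmm using fun σ : ↥(s44b_extSubgroup (G := G) X V) => σ.2.2
  have huniq : ∀ (σ : ↥(s44b_extSubgroup (G := G) X V)) (m : ℤ), (σ : G) • V = V + m • X →
      ((mm σ : ℤ) : ZMod p) = ((m : ℤ) : ZMod p) := by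
    intro σ m hm
    apply s44b_zsmul_inj hp hX hX0
    have := (hmm σ).symm.trans hm
    exact add_left_cancel this
  refine ⟨fun σ => ((mm σ : ℤ) : ZMod p), ?_, ?_, huniq⟩
  · intro σ τ
    have hσ := hmm σ
    have hτ := hmm τ
    have hστ : ((σ * τ : ↥(s44b_extSubgroup (G := G) X V)) : G) • V =
        V + (mm τ + mm σ) • X := by
      rw [Subgroup.coe_mul, mul_smul, hτ, smul_add, smul_comm (σ : G) (mm τ) X, σ.2.1, hσ,
        add_zsmul]
      abel
    show ((mm (σ * τ) : ℤ) : ZMod p) = ((mm σ : ℤ) : ZMod p) + ((mm τ : ℤ) : ZMod p)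
    rw [huniq (σ * τ) _ hστ]
    push_cast
    ring
  · intro σ
    show (σ : G) • V = V + (((mm σ : ℤ) : ZMod p)).val • X
    rw [hmm σ, s44b_zsmul_eq_val (p := p) hX]

end Abs

section JZ

variable (N : ℕ) [NeZero N]

local notation "Qb" => AlgebraicClosure ℚ

/-- **`H` is open**: it contains `Gal(ℚ̄ / L)` for a number field `L ⊇ L0`. -/
theorem s44b_extSubgroup_open (X V : JZero N) (L0 : IntermediateField ℚ Qb)
    [FiniteDimensional ℚ L0] :
    ∃ L : IntermediateField ℚ Qb, FiniteDimensional ℚ L ∧ L0 ≤ L ∧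
      ∀ σ : s44_G, (∀ y ∈ L, σ y = y) → σ ∈ s44b_extSubgroup (G := s44_G) X V := by
  obtain ⟨LX, hLX, hfX⟩ := egs_exists_fixing N X
  obtain ⟨LV, hLV, hfV⟩ := egs_exists_fixing N V
  refine ⟨L0 ⊔ (LX ⊔ LV), inferInstance, le_sup_left, fun σ hσ => ?_⟩
  apply s44b_mem_extSubgroup_of_fix
  · exact hfX σ (fun y hy => hσ y ((le_sup_left.trans le_sup_right : LX ≤ L0 ⊔ (LX ⊔ LV)) hy))
  · exact hfV σ (fun y hy => hσ y ((le_sup_right.trans le_sup_right : LV ≤ L0 ⊔ (LX ⊔ LV)) hy))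

/-- **(H2-ii)**: the function-field relation for every `σ ∈ H`. -/
theorem s44b_ext_kummer {p : ℕ} [NeZero p] {X V : JZero N}
    {fX fV : modularFunctionFieldBar N} (hfX : s44f_Rep N p X fX) (hfV : s44f_Rep N p V fV)
    (hX : p • X = 0) (σ : s44_G) (m : ℤ) (hm : σ • V = V + m • X) :
    ∃ (c : Qb) (g : modularFunctionFieldBar N), c ≠ 0 ∧ g ≠ 0 ∧
      arithmeticGalois (modularFunctionFieldFull N) σ • fV =
        algebraMap Qb (modularFunctionFieldBar N) c * (fV * fX ^ ((m : ZMod p).val)) * g ^ p := by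
  apply s44b_kummer_of_ext N σ _ hfX hfV
  rw [hm, s44b_zsmul_eq_val (p := p) hX]

end JZ

end Fermat.Agent.S44
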