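import Fermat.Agent.S44.Bridge.Tame

/-!
# S44 [BRIDGE] (helper7): the scalar fact (†) at the level of a number field `L' ⊆ ℚ̄`

`A` a valuation subring of `ℚ̄` above `p`, `Γ` its inertia group, `O' = A ∩ L'`.

* `s44b_inertia_fixed_val_nf` : `c ∈ L'^×` fixed by the restrictions of all `σ ∈ Γ` ⟹
  `v_A(c) = v_A(p ^ n)`;
* `s44b_inertia_fixed_dvd_field` / `s44b_inertia_fixed_dvd` : if moreover `p = π ^ e · u` and
  `c = π ^ m · w` with `π` a non-unit and `u, w` units of `O'`, then `e ∣ m`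
  (the `hbase` of the invariant slope lemma `s44ms_congr`).
-/

set_option autoImplicit false

namespace Fermat.Agent.S44

local notation "Qb" => AlgebraicClosure ℚ

section

variable (p : ℕ) [hp : Fact p.Prime] (A : ValuationSubring Qb) (hA : A.LiesOverPrime p)

include hA in
/-- (†)-scalar for an element of a normal subfield `L' ⊆ ℚ̄`, fixed by the image of inertia. -/
theorem s44b_inertia_fixed_val_nf (L' : IntermediateField ℚ Qb) [Normal ℚ L'] {c : L'}
    (hc : c ≠ 0) (hfix : ∀ σ ∈ A.inertiaSubgroupIn ℚ, σ.restrictNormal L' c = c) :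
    ∃ n : ℤ, A.valuation (c : Qb) = A.valuation ((p : Qb) ^ n) := by
  refine s44b_inertia_fixed_val p A hA (fun h => hc (Subtype.ext h)) fun σ hσ => ?_
  have h1 := AlgEquiv.restrictNormal_commutes σ L' c
  rw [hfix σ hσ] at h1
  exact h1.symm

include hA in
/-- **`e ∣ m`, field form**: `c = π ^ m · w` fixed by inertia, `p = π ^ e · u`. -/
theorem s44b_inertia_fixed_dvd_field {L : Type*} [Field L] [Algebra L Qb] {c π u w : L}
    (hfix : ∀ σ ∈ A.inertiaSubgroupIn ℚ, σ (algebraMap L Qb c) = algebraMap L Qb c)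
    (hπ : algebraMap L Qb π ∈ A.nonunits) (hπ0 : π ≠ 0)
    (hu : A.valuation (algebraMap L Qb u) = 1) (hw : A.valuation (algebraMap L Qb w) = 1)
    {e : ℕ} {m : ℤ} (hpe : ((p : ℕ) : L) = π ^ e * u) (hc : c = π ^ m * w) :
    (e : ℤ) ∣ m := by
  set x : Qb := algebraMap L Qb π with hx
  have hx0 : x ≠ 0 := by
    rw [hx, Ne, map_eq_zero_iff _ (algebraMap L Qb).injective]
    exact hπ0
  have hw0 : algebraMap L Qb w ≠ 0 := by
    intro h0
    rw [h0, map_zero] at hw
    exact zero_ne_one hw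
  have hcQ : algebraMap L Qb c = x ^ m * algebraMap L Qb w := by
    rw [hc, map_mul, map_zpow₀]
  have hc0 : algebraMap L Qb c ≠ 0 := by
    rw [hcQ]
    exact mul_ne_zero (zpow_ne_zero _ hx0) hw0
  obtain ⟨n, hn⟩ := s44b_inertia_fixed_val p A hA hc0 hfix
  have hpe' : (p : Qb) = x ^ e * algebraMap L Qb u := by
    rw [hx, ← map_pow, ← map_mul, ← hpe, map_natCast]
  have hvp : A.valuation (p : Qb) = A.valuation x ^ e := by
    rw [hpe', map_mul, map_pow, hu, mul_one]
  have hvc : A.valuation (algebraMap L Qb c) = A.valuation x ^ m := by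
    rw [hcQ, map_mul, map_zpow₀, hw, mul_one]
  have hvx0 : A.valuation x ≠ 0 := (Valuation.ne_zero_iff _).2 hx0
  have hvx1 : A.valuation x < 1 := (A.mem_nonunits_iff).1 hπ
  have h1 : A.valuation x ^ m = A.valuation x ^ ((e : ℤ) * n) := by
    rw [← hvc, hn, map_zpow₀, hvp, zpow_mul, zpow_natCast]
  have h2 : m = (e : ℤ) * n := zpow_right_injective₀ (zero_lt_iff.2 hvx0) hvx1.ne h1
  exact ⟨n, h2⟩

end

section Comap

variable (A : ValuationSubring Qb) {L : Type*} [Field L] [Algebra L Qb]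

/-- a unit of `O' = A ∩ L` has `A`-valuation `1`. -/
theorem s44b_comap_val_unit {u : ↥(A.comap (algebraMap L Qb))} (hu : IsUnit u) :
    A.valuation (algebraMap L Qb (u : L)) = 1 := by
  obtain ⟨w, hw⟩ := hu
  have h1 : algebraMap L Qb (u : L) ∈ A := u.2
  have h2 : algebraMap L Qb ((w⁻¹ : (↥(A.comap (algebraMap L Qb)))ˣ).1 : L) ∈ A :=
    ((w⁻¹ : (↥(A.comap (algebraMap L Qb)))ˣ).1).2
  have h3 : algebraMap L Qb (u : L) *
      algebraMap L Qb ((w⁻¹ : (↥(A.comap (algebraMap L Qb)))ˣ).1 : L) = 1 := by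
    rw [← map_mul, ← hw]
    have h31 : ((w.1 : ↥(A.comap (algebraMap L Qb))) : L) *
        ((w⁻¹ : (↥(A.comap (algebraMap L Qb)))ˣ).1 : L) = 1 := by
      have := congrArg (Subtype.val : ↥(A.comap (algebraMap L Qb)) → L) (Units.mul_inv w)
      exact this
    rw [h31, map_one]
  have h4 := (A.valuation_le_one_iff _).2 h1
  have h5 := (A.valuation_le_one_iff _).2 h2
  have h6 : A.valuation (algebraMap L Qb (u : L)) *
      A.valuation (algebraMap L Qb ((w⁻¹ : (↥(A.comap (algebraMap L Qb)))ˣ).1 : L)) = 1 := by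
    rw [← map_mul, h3, map_one]
  apply le_antisymm h4
  by_contra hlt
  push Not at hlt
  have h7 : A.valuation (algebraMap L Qb (u : L)) *
      A.valuation (algebraMap L Qb ((w⁻¹ : (↥(A.comap (algebraMap L Qb)))ˣ).1 : L)) < 1 :=
    mul_lt_one_of_lt_of_le hlt h5
  rw [h6] at h7
  exact lt_irrefl _ h7

/-- a non-unit of `O' = A ∩ L` is a non-unit of `A`. -/
theorem s44b_comap_nonunit {π : ↥(A.comap (algebraMap L Qb))} (hπ : ¬ IsUnit π) :
    algebraMap L Qb (π : L) ∈ A.nonunits := by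
  rw [ValuationSubring.mem_nonunits_iff_or]
  by_contra hcon
  push Not at hcon
  rcases hcon with ⟨h0, hinv⟩
  have h0' : (π : L) ≠ 0 := fun h => h0 (by rw [h, map_zero])
  have hmem : (π : L)⁻¹ ∈ A.comap (algebraMap L Qb) := by
    rw [ValuationSubring.mem_comap, map_inv₀]
    exact hinv
  apply hπ
  refine ⟨⟨π, ⟨(π : L)⁻¹, hmem⟩, ?_, ?_⟩, rfl⟩
  · apply Subtype.ext
    show (π : L) * (π : L)⁻¹ = 1
    exact mul_inv_cancel₀ h0'
  · apply Subtype.ext
    show (π : L)⁻¹ * (π : L) = 1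
    exact inv_mul_cancel₀ h0'

end Comap

section

variable (p : ℕ) [hp : Fact p.Prime] (A : ValuationSubring Qb) (hA : A.LiesOverPrime p)

include hA in
/-- **`e ∣ m`, valuation-subring form** (`O' = A ∩ L`): `c = π ^ m · w` fixed by inertia,
`p = π ^ e · u`, `π` a non-unit, `u, w` units of `O'`. -/
theorem s44b_inertia_fixed_dvd {L : Type*} [Field L] [Algebra L Qb] {c : L}
    (hfix : ∀ σ ∈ A.inertiaSubgroupIn ℚ, σ (algebraMap L Qb c) = algebraMap L Qb c)
    {π u w : ↥(A.comap (algebraMap L Qb))} (hπ : ¬ IsUnit π) (hπ0 : π ≠ 0) (hu : IsUnit u)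
    (hw : IsUnit w) {e : ℕ} {m : ℤ}
    (hpe : ((p : ℕ) : ↥(A.comap (algebraMap L Qb))) = π ^ e * u)
    (hc : c = (π : L) ^ m * (w : L)) : (e : ℤ) ∣ m := by
  have hpe' : ((p : ℕ) : L) = (π : L) ^ e * (u : L) := by
    have := congrArg (Subtype.val : ↥(A.comap (algebraMap L Qb)) → L) hpe
    simpa using this
  exact s44b_inertia_fixed_dvd_field p A hA hfix (s44b_comap_nonunit A hπ)
    (fun h => hπ0 (Subtype.ext h)) (s44b_comap_val_unit A hu) (s44b_comap_val_unit A hw) hpe' hc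

include hA in
/-- the same for a normal subfield `L' ⊆ ℚ̄` and an element fixed by the restrictions of the
elements of the inertia group. -/
theorem s44b_inertia_fixed_dvd_nf (L' : IntermediateField ℚ Qb) [Normal ℚ L'] {c : L'}
    (hfix : ∀ σ ∈ A.inertiaSubgroupIn ℚ, σ.restrictNormal L' c = c)
    {π u w : ↥(A.comap (algebraMap L' Qb))} (hπ : ¬ IsUnit π) (hπ0 : π ≠ 0) (hu : IsUnit u)
    (hw : IsUnit w) {e : ℕ} {m : ℤ}
    (hpe : ((p : ℕ) : ↥(A.comap (algebraMap L' Qb))) = π ^ e * u)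
    (hc : c = (π : L') ^ m * (w : L')) : (e : ℤ) ∣ m := by
  refine s44b_inertia_fixed_dvd p A hA (fun σ hσ => ?_) hπ hπ0 hu hw hpe hc
  have h1 := AlgEquiv.restrictNormal_commutes σ L' c
  rw [hfix σ hσ] at h1
  exact h1.symm

end

end Fermat.Agent.S44
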