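import Fermat.Agent.S44.Bridge.Eigen

/-!
# S44 [BRIDGE] (helper7): the extension relation `σ V = V + a X` on representing functions

* `s44b_kummer_of_ext` : `Rep X fX`, `Rep V fV`, `σ • V = V + a • X` ⟹
  `σ fV = c · fV · fX ^ a · g ^ p` (`c ∈ ℚ̄ˣ`, `g ≠ 0`);
* `s44b_ext_of_kummer` : the converse (`p ≠ 0`);
* `s44b_kummer_of_fixed` : `σ • V = V` ⟹ `σ fV = c · fV · g ^ p`.
-/

set_option autoImplicit false
set_option linter.unusedSectionVars false

namespace Fermat.Agent.S44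

open ModularCurve AlgebraicCurve Fermat.Agent.JT3 Fermat.Agent.S24 Fermat.Agent.SS2

section Ext

variable (N : ℕ) [NeZero N] {p : ℕ}

local notation "Qb" => AlgebraicClosure ℚ
local notation "FN" => modularFunctionFieldBar N

/-- **(H2-ii)**: the relation on functions from `σ V = V + a X`. -/
theorem s44b_kummer_of_ext (σ : s44_G) (a : ℕ) {X V : JZero N} {fX fV : FN}
    (hX : s44f_Rep N p X fX) (hV : s44f_Rep N p V fV) (h : σ • V = V + a • X) :
    ∃ (c : Qb) (g : FN), c ≠ 0 ∧ g ≠ 0 ∧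
      arithmeticGalois (modularFunctionFieldFull N) σ • fV =
        algebraMap Qb FN c * (fV * fX ^ a) * g ^ p := by
  have h1 := s44b_rep_smul N σ hV
  rw [h] at h1
  exact s44b_rep_unique N (s44b_rep_mul N hV (s44b_rep_pow N hX a)) h1

/-- the converse -/
theorem s44b_ext_of_kummer (hp0 : p ≠ 0) (σ : s44_G) (a : ℕ) {X V : JZero N} {fX fV : FN}
    (hX : s44f_Rep N p X fX) (hV : s44f_Rep N p V fV)
    (h : ∃ (c : Qb) (g : FN), c ≠ 0 ∧ g ≠ 0 ∧
      arithmeticGalois (modularFunctionFieldFull N) σ • fV =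
        algebraMap Qb FN c * (fV * fX ^ a) * g ^ p) :
    σ • V = V + a • X := by
  obtain ⟨c, g, hc, hg, e⟩ := h
  have h1 := s44b_rep_smul N σ hV
  have h2 : s44f_Rep N p (V + a • X) (algebraMap Qb FN c * (fV * fX ^ a) * g ^ p) :=
    (s44b_rep_pth N hc hg).2 (s44b_rep_mul N hV (s44b_rep_pow N hX a))
  rw [e] at h1
  exact s44b_rep_inj N hp0 h1 h2

/-- a fixed class -/
theorem s44b_kummer_of_fixed (σ : s44_G) {V : JZero N} {fV : FN}
    (hV : s44f_Rep N p V fV) (h : σ • V = V) :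
    ∃ (c : Qb) (g : FN), c ≠ 0 ∧ g ≠ 0 ∧
      arithmeticGalois (modularFunctionFieldFull N) σ • fV = algebraMap Qb FN c * fV * g ^ p := by
  have h1 := s44b_rep_smul N σ hV
  rw [h] at h1
  exact s44b_rep_unique N hV h1

/-- the additive version with an integer coefficient is reduced to `ℕ` by `p`-torsion -/
theorem s44b_zsmul_eq_nsmul {X : JZero N} (hp0 : p ≠ 0) (hX : p • X = 0) (m : ℤ) :
    ∃ a : ℕ, a < p ∧ m • X = a • X := by
  refine ⟨(m % (p : ℤ)).toNat, ?_, ?_⟩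
  · have h1 : 0 ≤ m % (p : ℤ) := Int.emod_nonneg _ (by exact_mod_cast hp0)
    have h2 : m % (p : ℤ) < p := Int.emod_lt_of_pos _ (by exact_mod_cast Nat.pos_of_ne_zero hp0)
    omega
  · have h1 : 0 ≤ m % (p : ℤ) := Int.emod_nonneg _ (by exact_mod_cast hp0)
    have e : m = (p : ℤ) * (m / (p : ℤ)) + ((m % (p : ℤ)).toNat : ℤ) := by
      rw [Int.toNat_of_nonneg h1]
      exact (Int.mul_ediv_add_emod m p).symm
    conv_lhs => rw [e]
    rw [add_zsmul, mul_zsmul', natCast_zsmul, natCast_zsmul, hX, smul_zero, zero_add]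

end Ext

end Fermat.Agent.S44
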