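import Mathlib
import Fermat.Agent.FF.Inst.LevelInertia
import Fermat.Agent.S05.Inertia
import Fermat.Agent.S44.Seams

/-!
# S44 [BRIDGE] (helper7): (H2-TAME) — fields fixed by `Γ ∩ ker χ` are tamely ramified at `A`

`A` a valuation subring of `ℚ̄` above `p`, `Γ = A.inertiaSubgroupIn ℚ` its inertia group,
`ζ` a primitive `p`-th root of unity.

* `s44b_inertia_fixed_val` : `γ ≠ 0` fixed by `Γ` ⟹ `v_A(γ) = v_A(p ^ n)` for some `n : ℤ`
  (the inertia field has uniformiser `p`; a restatement of `ffi_lvi_unit`).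
* `s44b_tame_val` : `γ ≠ 0` fixed by every `σ ∈ Γ` with `σ ζ = ζ` ⟹
  `v_A(γ ^ (p - 1)) = v_A(p ^ n)` for some `n : ℤ` (norm from `ℚ̄^{Γ ∩ ker χ}` down to `ℚ̄^Γ`).
* `s44b_tame_dvd_field` : `L → ℚ̄` pointwise fixed by `Γ ∩ ker χ`, `p = π ^ e · u` in `L` with `π` a
  non-unit and `u` a unit at `A` ⟹ `e ∣ p - 1`.
* `s44b_tame_dvd` : the same in a valuation subring `O = A ∩ L` (the binder shape of the
  semistable model `ssm_fln_model_of_node`), and `s44b_tame_coprime : e.Coprime p`.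
-/

set_option autoImplicit false

noncomputable section

namespace Fermat.Agent.S44

open Fermat.Agent.FF

local notation "Qb" => AlgebraicClosure ℚ

section

variable (p : ℕ) [hp : Fact p.Prime] (A : ValuationSubring Qb) (hA : A.LiesOverPrime p)

include hA in
/-- the inertia field has uniformiser `p`. -/
theorem s44b_inertia_fixed_val {γ : Qb} (hγ : γ ≠ 0)
    (hfix : ∀ σ ∈ A.inertiaSubgroupIn ℚ, σ γ = γ) :
    ∃ n : ℤ, A.valuation γ = A.valuation ((p : Qb) ^ n) := by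
  obtain ⟨n, h1, h2⟩ := ffi_lvi_unit p A hA (ffi_mem_L.2 hfix) hγ
  have hp0 : (p : Qb) ≠ 0 := Nat.cast_ne_zero.2 hp.out.ne_zero
  have hv1 : A.valuation (γ * (p : Qb) ^ n) = 1 := by
    apply le_antisymm ((A.valuation_le_one_iff _).2 h1)
    have h3 := (A.valuation_le_one_iff _).2 h2
    rw [map_inv₀] at h3
    have hne : A.valuation (γ * (p : Qb) ^ n) ≠ 0 :=
      (Valuation.ne_zero_iff _).2 (mul_ne_zero hγ (zpow_ne_zero _ hp0))
    exact (inv_le_one₀ (zero_lt_iff.2 hne)).1 h3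
  refine ⟨-n, ?_⟩
  rw [map_mul] at hv1
  rw [zpow_neg, map_inv₀]
  have hne : A.valuation ((p : Qb) ^ n) ≠ 0 := (Valuation.ne_zero_iff _).2 (zpow_ne_zero _ hp0)
  exact eq_inv_of_mul_eq_one_left hv1

variable {ζ : Qb} (hζ : IsPrimitiveRoot ζ p)

omit hp in
include hζ in
/-- two automorphisms with the same cyclotomic character agree on `ζ`. -/
theorem s44b_chi_eq_apply [NeZero p] {σ τ : Qb ≃ₐ[ℚ] Qb}
    (h : hζ.autToPow ℚ σ = hζ.autToPow ℚ τ) : σ ζ = τ ζ := by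
  rw [← hζ.autToPow_spec ℚ σ, ← hζ.autToPow_spec ℚ τ, h]

include hA hζ in
/-- **(H2-TAME), valuation form**: an element fixed by `Γ ∩ ker χ` has
`v(γ) ^ (p - 1) ∈ v(p) ^ ℤ`. -/
theorem s44b_tame_val {γ : Qb} (hγ : γ ≠ 0)
    (hfix : ∀ σ ∈ A.inertiaSubgroupIn ℚ, σ ζ = ζ → σ γ = γ) :
    ∃ n : ℤ, A.valuation (γ ^ (p - 1)) = A.valuation ((p : Qb) ^ n) := by
  classical
  have : NeZero p := ⟨hp.out.ne_zero⟩
  have : Algebra.IsAlgebraic ℚ Qb := AlgebraicClosure.isAlgebraic ℚ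
  set Γ : Subgroup (Qb ≃ₐ[ℚ] Qb) := A.inertiaSubgroupIn ℚ with hΓ
  set χ : (Qb ≃ₐ[ℚ] Qb) →* (ZMod p)ˣ := hζ.autToPow ℚ with hχ
  set C : Subgroup (ZMod p)ˣ := Γ.map χ with hC
  let _ : Fintype ↥C := Fintype.ofFinite _
  -- representatives
  have hrep : ∀ c : ↥C, ∃ τ : Qb ≃ₐ[ℚ] Qb, τ ∈ Γ ∧ χ τ = (c : (ZMod p)ˣ) := fun c =>
    Subgroup.mem_map.1 c.2
  choose τ hτΓ hτχ using hrep
  set Nγ : Qb := ∏ c : ↥C, τ c γ with hN
  -- the key relation
  have hkey : ∀ (σ : Qb ≃ₐ[ℚ] Qb) (hσ : σ ∈ Γ) (c : ↥C),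
      σ (τ c γ) = τ (⟨χ σ, Subgroup.mem_map_of_mem χ hσ⟩ * c) γ := by
    intro σ hσ c
    set c' : ↥C := ⟨χ σ, Subgroup.mem_map_of_mem χ hσ⟩ * c with hc'
    have h1 : χ (σ * τ c) = χ (τ c') := by
      rw [map_mul, hτχ, hτχ, hc']
      rfl
    have h2 : ((τ c')⁻¹ * (σ * τ c)) ∈ Γ :=
      Γ.mul_mem (Γ.inv_mem (hτΓ c')) (Γ.mul_mem hσ (hτΓ c))
    have h3 : ((τ c')⁻¹ * (σ * τ c)) ζ = ζ := by
      have h4 : (σ * τ c) ζ = τ c' ζ := s44b_chi_eq_apply p hζ h1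
      show (τ c')⁻¹ ((σ * τ c) ζ) = ζ
      rw [h4]
      exact (τ c').symm_apply_apply ζ
    have h5 := hfix _ h2 h3
    have h6 : (τ c')⁻¹ ((σ * τ c) γ) = γ := h5
    have h7 : (σ * τ c) γ = τ c' γ := by
      have := congrArg (τ c') h6
      rwa [show (τ c') ((τ c')⁻¹ ((σ * τ c) γ)) = (σ * τ c) γ from
        (τ c').apply_symm_apply _] at this
    exact h7
  -- `Nγ` is fixed by `Γ`
  have hNfix : ∀ σ ∈ Γ, σ Nγ = Nγ := by
    intro σ hσ
    rw [hN, map_prod]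
    have h1 : ∀ c : ↥C, σ (τ c γ) =
        τ ((Equiv.mulLeft (⟨χ σ, Subgroup.mem_map_of_mem χ hσ⟩ : ↥C)) c) γ := fun c => hkey σ hσ c
    rw [Finset.prod_congr rfl (fun c _ => h1 c)]
    exact Equiv.prod_comp (Equiv.mulLeft (⟨χ σ, Subgroup.mem_map_of_mem χ hσ⟩ : ↥C))
      (fun c => τ c γ)
  have hN0 : Nγ ≠ 0 := by
    rw [hN]
    refine Finset.prod_ne_zero_iff.2 fun c _ => ?_
    exact (map_ne_zero (τ c)).2 hγ
  -- valuation of `Nγ`
  have hNv : A.valuation Nγ = A.valuation γ ^ Fintype.card ↥C := by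
    rw [hN, map_prod]
    rw [Finset.prod_congr rfl (fun c _ => Fermat.Agent.S05.inertia_valuation_apply A (hτΓ c) γ)]
    rw [Finset.prod_const, Finset.card_univ]
  obtain ⟨n, hn⟩ := s44b_inertia_fixed_val p A hA hN0 hNfix
  -- `card C ∣ p - 1`
  have hcard : Fintype.card ↥C ∣ p - 1 := by
    have h1 : Nat.card ↥C ∣ Nat.card (ZMod p)ˣ := Subgroup.card_subgroup_dvd_card C
    rw [Nat.card_eq_fintype_card, Nat.card_eq_fintype_card, ZMod.card_units_eq_totient,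
      Nat.totient_prime hp.out] at h1
    exact h1
  obtain ⟨m, hm⟩ := hcard
  refine ⟨n * m, ?_⟩
  rw [map_pow, hm, pow_mul, ← hNv, hn, map_zpow₀, map_zpow₀, zpow_mul, zpow_natCast]

include hA hζ in
/-- **(H2-TAME), field form**: `L → ℚ̄` pointwise fixed by `Γ ∩ ker χ`, `p = π ^ e · u` with `π` a
non-unit and `u` a unit at `A`: then `e ∣ p - 1`. -/
theorem s44b_tame_dvd_field {L : Type*} [Field L] [Algebra L Qb]
    (hfix : ∀ σ ∈ A.inertiaSubgroupIn ℚ, σ ζ = ζ →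
      ∀ x : L, σ (algebraMap L Qb x) = algebraMap L Qb x)
    {π u : L} {e : ℕ} (hπ : algebraMap L Qb π ∈ A.nonunits)
    (hu : A.valuation (algebraMap L Qb u) = 1) (hpe : ((p : ℕ) : L) = π ^ e * u) :
    e ∣ p - 1 := by
  have hp0 : (p : Qb) ≠ 0 := Nat.cast_ne_zero.2 hp.out.ne_zero
  have hpe' : (p : Qb) = algebraMap L Qb π ^ e * algebraMap L Qb u := by
    rw [← map_pow, ← map_mul, ← hpe, map_natCast]
  set x : Qb := algebraMap L Qb π with hx
  have hx0 : x ≠ 0 := by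
    intro h0
    rw [h0] at hpe'
    rcases Nat.eq_zero_or_pos e with he | he
    · rw [he, pow_zero, one_mul] at hpe'
      have h1 : A.valuation (p : Qb) < 1 := (A.mem_nonunits_iff).1 hA
      rw [hpe', hu] at h1
      exact lt_irrefl _ h1
    · rw [zero_pow he.ne', zero_mul] at hpe'
      exact hp0 hpe'
  obtain ⟨n, hn⟩ := s44b_tame_val p A hA hζ hx0 (fun σ hσ hσζ => hfix σ hσ hσζ π)
  have hvp : A.valuation (p : Qb) = A.valuation x ^ e := by
    rw [hpe', map_mul, map_pow, hu, mul_one]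
  have hvx0 : A.valuation x ≠ 0 := (Valuation.ne_zero_iff _).2 hx0
  have hvx1 : A.valuation x < 1 := (A.mem_nonunits_iff).1 hπ
  have h1 : A.valuation x ^ ((p - 1 : ℕ) : ℤ) = A.valuation x ^ ((e : ℤ) * n) := by
    rw [zpow_natCast, ← map_pow, hn, map_zpow₀, hvp, zpow_mul, zpow_natCast]
  have h2 : ((p - 1 : ℕ) : ℤ) = (e : ℤ) * n :=
    zpow_right_injective₀ (zero_lt_iff.2 hvx0) hvx1.ne h1
  have h3 : (e : ℤ) ∣ ((p - 1 : ℕ) : ℤ) := ⟨n, h2⟩
  exact Int.natCast_dvd_natCast.1 h3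

include hA hζ in
/-- **(H2-TAME), valuation-subring form** (`O = A ∩ L`, the binder shape of the semistable model):
`p = π ^ e · u` in `O` with `π` a non-unit and `u` a unit: then `e ∣ p - 1`. -/
theorem s44b_tame_dvd {L : Type*} [Field L] [Algebra L Qb]
    (hfix : ∀ σ ∈ A.inertiaSubgroupIn ℚ, σ ζ = ζ →
      ∀ x : L, σ (algebraMap L Qb x) = algebraMap L Qb x)
    {π u : ↥(A.comap (algebraMap L Qb))} {e : ℕ} (hπ : ¬ IsUnit π) (hu : IsUnit u)
    (hpe : ((p : ℕ) : ↥(A.comap (algebraMap L Qb))) = π ^ e * u) : e ∣ p - 1 := by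
  have hπn : algebraMap L Qb (π : L) ∈ A.nonunits := by
    rw [ValuationSubring.mem_nonunits_iff_or]
    by_contra hcon
    push Not at hcon
    rcases hcon with ⟨h0, hinv⟩
    have h0' : (π : L) ≠ 0 := fun h => h0 (by rw [h, map_zero])
    have hmem : (π : L)⁻¹ ∈ A.comap (algebraMap L Qb) := by
      rw [ValuationSubring.mem_comap, map_inv₀]
      exact hinv
    apply hπ
    refine ⟨⟨π, ⟨(π : L)⁻¹, hmem⟩, ?_, ?_⟩, rfl⟩
    · apply Subtype.ext
      show (π : L) * (π : L)⁻¹ = 1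
      exact mul_inv_cancel₀ h0'
    · apply Subtype.ext
      show (π : L)⁻¹ * (π : L) = 1
      exact inv_mul_cancel₀ h0'
  have huv : A.valuation (algebraMap L Qb (u : L)) = 1 := by
    obtain ⟨w, hw⟩ := hu
    have h1 : algebraMap L Qb (u : L) ∈ A := u.2
    have h2 : algebraMap L Qb ((w⁻¹ : (↥(A.comap (algebraMap L Qb)))ˣ).1 : L) ∈ A :=
      ((w⁻¹ : (↥(A.comap (algebraMap L Qb)))ˣ).1).2
    have h3 : algebraMap L Qb (u : L) *
        algebraMap L Qb ((w⁻¹ : (↥(A.comap (algebraMap L Qb)))ˣ).1 : L) = 1 := by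
      rw [← map_mul, ← hw]
      have h31 : ((w.1 : ↥(A.comap (algebraMap L Qb))) : L) *
          ((w⁻¹ : (↥(A.comap (algebraMap L Qb)))ˣ).1 : L) = 1 := by
        have := congrArg (Subtype.val : ↥(A.comap (algebraMap L Qb)) → L) (Units.mul_inv w)
        exact this
      rw [h31, map_one]
    have h4 := (A.valuation_le_one_iff _).2 h1
    have h5 := (A.valuation_le_one_iff _).2 h2
    have h6 : A.valuation (algebraMap L Qb (u : L)) *
        A.valuation (algebraMap L Qb ((w⁻¹ : (↥(A.comap (algebraMap L Qb)))ˣ).1 : L)) = 1 := by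
      rw [← map_mul, h3, map_one]
    apply le_antisymm h4
    by_contra hlt
    push Not at hlt
    have h7 : A.valuation (algebraMap L Qb (u : L)) *
        A.valuation (algebraMap L Qb ((w⁻¹ : (↥(A.comap (algebraMap L Qb)))ˣ).1 : L)) < 1 :=
      mul_lt_one_of_lt_of_le hlt h5
    rw [h6] at h7
    exact lt_irrefl _ h7
  have hpe' : ((p : ℕ) : L) = (π : L) ^ e * (u : L) := by
    have := congrArg (Subtype.val : ↥(A.comap (algebraMap L Qb)) → L) hpe
    simpa using this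
  exact s44b_tame_dvd_field p A hA hζ hfix hπn huv hpe'

omit A in
/-- a divisor of `p - 1` is prime to `p`. -/
theorem s44b_coprime_of_dvd_pred {e : ℕ} (he : e ∣ p - 1) : e.Coprime p := by
  have hp1 : 0 < p - 1 := Nat.sub_pos_of_lt hp.out.one_lt
  have hle : e ≤ p - 1 := Nat.le_of_dvd hp1 he
  have he0 : e ≠ 0 := by
    rintro rfl
    rw [zero_dvd_iff] at he
    omega
  refine (Nat.Coprime.symm ((Nat.Prime.coprime_iff_not_dvd hp.out).2 fun hdvd => ?_))
  have := Nat.le_of_dvd (Nat.pos_of_ne_zero he0) hdvd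
  omega

include hA hζ in
/-- **(H2-TAME), DVR form**: if `O = A ∩ L` is a discrete valuation ring with uniformiser `π`, then
`p = π ^ e · u` with `u` a unit and `e ∣ p - 1`, `e` prime to `p`. -/
theorem s44b_tame_exists {L : Type*} [Field L] [Algebra L Qb]
    (hfix : ∀ σ ∈ A.inertiaSubgroupIn ℚ, σ ζ = ζ →
      ∀ x : L, σ (algebraMap L Qb x) = algebraMap L Qb x)
    [IsDiscreteValuationRing ↥(A.comap (algebraMap L Qb))]
    {π : ↥(A.comap (algebraMap L Qb))} (hπ : Irreducible π) :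
    ∃ (e : ℕ) (u : ↥(A.comap (algebraMap L Qb))), IsUnit u ∧
      ((p : ℕ) : ↥(A.comap (algebraMap L Qb))) = π ^ e * u ∧ e ∣ p - 1 ∧ e.Coprime p := by
  have hp0L : ((p : ℕ) : L) ≠ 0 := by
    intro h0
    have h1 : algebraMap L Qb ((p : ℕ) : L) = 0 := by rw [h0, map_zero]
    rw [map_natCast] at h1
    exact (Nat.cast_ne_zero.2 hp.out.ne_zero) h1
  have hp0 : ((p : ℕ) : ↥(A.comap (algebraMap L Qb))) ≠ 0 := by
    intro h0
    apply hp0L
    have := congrArg (Subtype.val : ↥(A.comap (algebraMap L Qb)) → L) h0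
    simpa using this
  obtain ⟨e, w, hw⟩ := IsDiscreteValuationRing.eq_unit_mul_pow_irreducible hp0 hπ
  have hpe : ((p : ℕ) : ↥(A.comap (algebraMap L Qb))) = π ^ e * (w : ↥(A.comap (algebraMap L Qb))) := by
    rw [hw, mul_comm]
  have hdvd := s44b_tame_dvd p A hA hζ hfix hπ.not_isUnit w.isUnit hpe
  exact ⟨e, w, w.isUnit, hpe, hdvd, s44b_coprime_of_dvd_pred p hdvd⟩

end

end Fermat.Agent.S44
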