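import Fermat.Agent.S44.Bridge.TameNF

/-!
# S44 [BRIDGE] (helper7): the constants hypothesis `s44pa_Base` of [H2-S], number-field instance

`A` a valuation subring of `ℚ̄` above `p`, `Γ` its inertia group, `L' ⊆ ℚ̄` normal over `ℚ`,
`O' = A ∩ L'` a discrete valuation ring with uniformiser `π`, `p = π ^ e · u`.

* `s44b_dvr_factor` : every `c ∈ L'^×` is `π ^ m · ω`, `ω ∈ O'^×`;
* `s44b_base_nf`    : if `c` is fixed by the restrictions of all `σ ∈ Γ` then `c = π ^ (e n) · ω`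
  (the conclusion of `s44pa_Base`, `K := L'`, `A0 := O'`).
-/

set_option autoImplicit false

namespace Fermat.Agent.S44

local notation "Qb" => AlgebraicClosure ℚ

section

variable {L : Type*} [Field L] (O : ValuationSubring L) [IsDiscreteValuationRing ↥O]

/-- in the fraction field of a discrete valuation subring every nonzero element is
`π ^ m · unit`. -/
theorem s44b_dvr_factor {π : ↥O} (hπ : Irreducible π) {c : L} (hc : c ≠ 0) :
    ∃ (m : ℤ) (ω : (↥O)ˣ), c = (π : L) ^ m * ((ω : ↥O) : L) := by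
  have hπ0 : (π : L) ≠ 0 := fun h => hπ.ne_zero (Subtype.ext h)
  rcases O.mem_or_inv_mem c with hmem | hmem
  · have hc' : (⟨c, hmem⟩ : ↥O) ≠ 0 := fun h => hc (congrArg Subtype.val h)
    obtain ⟨k, ω, hω⟩ := IsDiscreteValuationRing.eq_unit_mul_pow_irreducible hc' hπ
    refine ⟨k, ω, ?_⟩
    have := congrArg (Subtype.val : ↥O → L) hω
    simp only [MulMemClass.coe_mul, SubmonoidClass.coe_pow] at this
    rw [zpow_natCast, mul_comm]
    exact this
  · have hci : c⁻¹ ≠ 0 := inv_ne_zero hc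
    have hc' : (⟨c⁻¹, hmem⟩ : ↥O) ≠ 0 := fun h => hci (congrArg Subtype.val h)
    obtain ⟨k, ω, hω⟩ := IsDiscreteValuationRing.eq_unit_mul_pow_irreducible hc' hπ
    refine ⟨-(k : ℤ), ω⁻¹, ?_⟩
    have h1 := congrArg (Subtype.val : ↥O → L) hω
    simp only [MulMemClass.coe_mul, SubmonoidClass.coe_pow] at h1
    have h2 : ((ω : ↥O) : L) * (((ω⁻¹ : (↥O)ˣ) : ↥O) : L) = 1 := by
      have := congrArg (Subtype.val : ↥O → L) (Units.mul_inv ω)
      exact this
    have hω0 : ((ω : ↥O) : L) ≠ 0 := left_ne_zero_of_mul_eq_one h2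
    have h3 : (((ω⁻¹ : (↥O)ˣ) : ↥O) : L) = (((ω : ↥O) : L))⁻¹ := eq_inv_of_mul_eq_one_right h2
    rw [h3, zpow_neg, zpow_natCast, ← mul_inv, mul_comm, ← h1, inv_inv]

end

section

variable (p : ℕ) [hp : Fact p.Prime] (A : ValuationSubring Qb) (hA : A.LiesOverPrime p)

include hA in
/-- **the constants hypothesis of [H2-S]** (`s44pa_Base`) over a normal number field `L' ⊆ ℚ̄`:
a nonzero constant fixed by the image of the inertia group is `π ^ (e n) · unit`. -/
theorem s44b_base_nf (L' : IntermediateField ℚ Qb) [Normal ℚ L']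
    [IsDiscreteValuationRing ↥(A.comap (algebraMap L' Qb))]
    {π : ↥(A.comap (algebraMap L' Qb))} (hπ : Irreducible π) {e : ℕ}
    {u : ↥(A.comap (algebraMap L' Qb))} (hu : IsUnit u)
    (hpe : ((p : ℕ) : ↥(A.comap (algebraMap L' Qb))) = π ^ e * u) {c : L'} (hc : c ≠ 0)
    (hfix : ∀ σ ∈ A.inertiaSubgroupIn ℚ, σ.restrictNormal L' c = c) :
    ∃ (n : ℤ) (ω : (↥(A.comap (algebraMap L' Qb)))ˣ),
      c = (π : L') ^ ((e : ℤ) * n) * ((ω : ↥(A.comap (algebraMap L' Qb))) : L') := by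
  obtain ⟨m, ω, hm⟩ := s44b_dvr_factor (A.comap (algebraMap L' Qb)) hπ hc
  obtain ⟨n, hn⟩ := s44b_inertia_fixed_dvd_nf p A hA L' hfix hπ.not_isUnit hπ.ne_zero hu
    ω.isUnit hpe hm
  exact ⟨n, ω, by rw [← hn]; exact hm⟩

end

end Fermat.Agent.S44
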