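import Fermat.Agent.S44.Bridge.FrameCor

/-!
# S44 [BRIDGE] (helper7): the depth predicates under an involution `Wj` of `J₀(N)` covered by `W̄`

Abstract in `Wj` and `W̄`: the only inputs are `W̄ ∘ W̄ = id` and "`W̄ f` represents `Wj z`".

* `s44b_depth2_W_of_id` : `Depth2 c id (Wj z) → Depth2 c W̄ z`;
* `s44b_depth2_id_of_W` : `Depth2 c W̄ z → Depth2 c id (Wj z)`;
* `s44b_depth2_W_W`     : `Depth2 c id z → Depth2 c W̄ (Wj z)`;
* for the frame v2: `s44b_d1inf_W`, `s44b_split_W` (fields `d1inf_W`, `split_W` of `s44bg_IsAL`).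
-/

set_option autoImplicit false
set_option linter.unusedSectionVars false

namespace Fermat.Agent.S44

open ModularCurve AlgebraicCurve Fermat.Agent.JT3 Fermat.Agent.SS

section Abs

variable (N : ℕ) [NeZero N] {p : ℕ} (A : ValuationSubring s44_Qb)

local notation "Qb" => AlgebraicClosure ℚ
local notation "FN" => modularFunctionFieldBar N

variable (Tw : modularFunctionFieldBar N →ₐ[AlgebraicClosure ℚ] modularFunctionFieldBar N)
  (Wj : JZero N → JZero N)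

theorem s44b_depth2_W_of_id (hp0 : p ≠ 0)
    (hrep : ∀ (z : JZero N) (f : FN), s44f_Rep N p z f → s44f_Rep N p (Wj z) (Tw f))
    {c : s44_Qb} {z : JZero N} (hz : p • z = 0)
    (h : s44f_Depth2 N A p c (AlgHom.id Qb FN) (Wj z)) : s44f_Depth2 N A p c Tw z := by
  obtain ⟨f, hf⟩ := s44b_rep_exists N hz
  obtain ⟨g, b, hg, hb, e⟩ := s44b_depth2_any_rep N A hp0 (AlgHom.id Qb FN) h (hrep z f hf)
  exact ⟨f, hf, g, b, hg, hb, e⟩

theorem s44b_depth2_id_of_W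
    (hrep : ∀ (z : JZero N) (f : FN), s44f_Rep N p z f → s44f_Rep N p (Wj z) (Tw f))
    {c : s44_Qb} {z : JZero N}
    (h : s44f_Depth2 N A p c Tw z) : s44f_Depth2 N A p c (AlgHom.id Qb FN) (Wj z) := by
  obtain ⟨f, hf, g, b, hg, hb, e⟩ := h
  exact ⟨Tw f, hrep z f hf, g, b, hg, hb, e⟩

theorem s44b_depth2_W_W (hWW : ∀ x, Tw (Tw x) = x)
    (hrep : ∀ (z : JZero N) (f : FN), s44f_Rep N p z f → s44f_Rep N p (Wj z) (Tw f))
    {c : s44_Qb} {z : JZero N}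
    (h : s44f_Depth2 N A p c (AlgHom.id Qb FN) z) : s44f_Depth2 N A p c Tw (Wj z) := by
  obtain ⟨f, hf, g, b, hg, hb, e⟩ := h
  refine ⟨Tw f, hrep z f hf, g, b, hg, hb, ?_⟩
  rw [hWW]
  exact e

end Abs

section Frame

variable (P : FreyPackage) (M : ℕ) [NeZero M] [NeZero (M * P.p)] (hpM : ¬ P.p ∣ M)
  (Wj : JZero (M * P.p) → JZero (M * P.p))

/-- field `d1inf_W` of `s44bg_IsAL` for the frame v2 -/
theorem s44b_d1inf_W
    (hrep : ∀ (z : JZero (M * P.p)) (f : modularFunctionFieldBar (M * P.p)),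
      s44f_Rep (M * P.p) P.p z f → s44f_Rep (M * P.p) P.p (Wj z) (ssm_al_Wbar M P.p P.pp hpM f))
    (z : JZero (M * P.p)) (hz : P.p • z = 0) (h : (s44_frame2 P M hpM).D1inf (Wj z)) :
    (s44_frame2 P M hpM).D10 z := by
  obtain ⟨c, hc, hcA, hd⟩ := h
  exact ⟨c, hc, hcA, s44b_depth2_W_of_id (M * P.p) _ _ Wj P.hp0 hrep hz hd⟩

/-- field `split_W` of `s44bg_IsAL` for the frame v2 -/
theorem s44b_split_W
    (hWW : ∀ x, ssm_al_Wbar M P.p P.pp hpM (ssm_al_Wbar M P.p P.pp hpM x) = x)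
    (hrep : ∀ (z : JZero (M * P.p)) (f : modularFunctionFieldBar (M * P.p)),
      s44f_Rep (M * P.p) P.p z f → s44f_Rep (M * P.p) P.p (Wj z) (ssm_al_Wbar M P.p P.pp hpM f))
    (z : JZero (M * P.p)) (h : (s44_frame2 P M hpM).Split z) :
    (s44_frame2 P M hpM).Split (Wj z) := by
  intro c hc
  obtain ⟨h1, h2⟩ := h c hc
  exact ⟨s44b_depth2_id_of_W (M * P.p) _ _ Wj hrep h2,
    s44b_depth2_W_W (M * P.p) _ _ Wj hWW hrep h1⟩

/-- also: `D10 (Wj z) ⟸ D1inf z` -/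
theorem s44b_d10_W
    (hWW : ∀ x, ssm_al_Wbar M P.p P.pp hpM (ssm_al_Wbar M P.p P.pp hpM x) = x)
    (hrep : ∀ (z : JZero (M * P.p)) (f : modularFunctionFieldBar (M * P.p)),
      s44f_Rep (M * P.p) P.p z f → s44f_Rep (M * P.p) P.p (Wj z) (ssm_al_Wbar M P.p P.pp hpM f))
    (z : JZero (M * P.p)) (h : (s44_frame2 P M hpM).D1inf z) :
    (s44_frame2 P M hpM).D10 (Wj z) := by
  obtain ⟨c, hc, hcA, hd⟩ := h
  exact ⟨c, hc, hcA, s44b_depth2_W_W (M * P.p) _ _ Wj hWW hrep hd⟩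

end Frame

end Fermat.Agent.S44
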